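import Mathlib.RingTheory.DedekindDomain.AdicValuation
import Fermat.Prelude.Def_AlgebraicCurve_DivisorClassGroup

/-!
Basic facts on the order function of a place of a function field (S24, Part I).
-/

set_option autoImplicit false
open AlgebraicCurve IsDedekindDomain WithZero

namespace Fermat.Agent.S24.ZP

variable {K F : Type*} [Field K] [Field F] [Algebra K F] (v : Place K F)

theorem ord_def (f : F) : v.ord f = -(WithZero.log (v.adicValuation f)) := rfl

theorem adicValuation_le_one_iff (f : F) :
    v.adicValuation f ≤ 1 ↔ f ∈ v.toValuationSubring := by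
  constructor
  · intro h
    rcases eq_or_ne f 0 with rfl | hf
    · exact zero_mem _
    obtain ⟨π, hπ⟩ := IsDiscreteValuationRing.exists_irreducible v.toValuationSubring
    obtain ⟨u, hu⟩ := v.exists_unit_mul_zpow hf hπ
    have hord : 0 ≤ v.ord f := by
      unfold Place.ord
      have : WithZero.log (v.adicValuation f) ≤ 0 := by
        rw [← WithZero.log_one]
        exact WithZero.log_le_log (v.adicValuation_ne_zero hf) one_ne_zero |>.mpr h
      omega
    rw [hu]
    obtain ⟨n, hn⟩ := Int.eq_ofNat_of_zero_le hord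
    rw [hn, zpow_natCast]
    exact mul_mem u.1.2 (pow_mem π.2 n)
  · intro h
    have := v.adicValuation_coe ⟨f, h⟩
    rw [this]
    exact HeightOneSpectrum.intValuation_le_one _ _

theorem adicValuation_eq_exp_neg_ord {f : F} (hf : f ≠ 0) :
    v.adicValuation f = WithZero.exp (-(v.ord f)) := by
  rw [ord_def, neg_neg, WithZero.exp_log (v.adicValuation_ne_zero hf)]

theorem ord_nonneg_iff {f : F} (hf : f ≠ 0) : 0 ≤ v.ord f ↔ f ∈ v.toValuationSubring := by
  rw [← adicValuation_le_one_iff, adicValuation_eq_exp_neg_ord v hf, ← WithZero.exp_zero,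
    WithZero.exp_le_exp]
  omega

theorem ord_pos_iff {f : F} (hf : f ≠ 0) :
    0 < v.ord f ↔ f ∈ v.toValuationSubring.nonunits := by
  rw [ValuationSubring.mem_nonunits_iff_or]
  simp only [hf, false_or]
  rw [← ord_nonneg_iff v (inv_ne_zero hf), v.ord_inv]
  omega

theorem ord_add_ge {f g : F} (hf : f ≠ 0) (hg : g ≠ 0) (hfg : f + g ≠ 0) :
    min (v.ord f) (v.ord g) ≤ v.ord (f + g) := by
  have h := v.adicValuation.map_add f g
  rw [adicValuation_eq_exp_neg_ord v hf, adicValuation_eq_exp_neg_ord v hg,
    adicValuation_eq_exp_neg_ord v hfg] at h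
  rcases le_max_iff.mp h with h | h
  · rw [WithZero.exp_le_exp] at h
    exact (min_le_left _ _).trans (by omega)
  · rw [WithZero.exp_le_exp] at h
    exact (min_le_right _ _).trans (by omega)

theorem ord_algebraMap (a : K) : v.ord (algebraMap K F a) = 0 := by
  rcases eq_or_ne a 0 with rfl | ha
  · simp
  have h1 : 0 ≤ v.ord (algebraMap K F a) :=
    (ord_nonneg_iff v (by simpa using ha)).mpr (v.algebraMap_mem' a)
  have h2 : 0 ≤ v.ord (algebraMap K F a⁻¹) :=
    (ord_nonneg_iff v (by simpa using ha)).mpr (v.algebraMap_mem' a⁻¹)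
  rw [map_inv₀, v.ord_inv] at h2
  omega

theorem ord_pow (f : F) (n : ℕ) : v.ord (f ^ n) = n * v.ord f := by
  have := v.ord_zpow f n
  simpa using this

theorem ord_neg (f : F) : v.ord (-f) = v.ord f := by
  rw [ord_def, ord_def, Valuation.map_neg]

theorem ord_sub_ge {f g : F} (hf : f ≠ 0) (hg : g ≠ 0) (hfg : f - g ≠ 0) :
    min (v.ord f) (v.ord g) ≤ v.ord (f - g) := by
  rw [sub_eq_add_neg] at hfg ⊢
  have := ord_add_ge v hf (neg_ne_zero.mpr hg) hfg
  rwa [ord_neg] at this

theorem ord_add_eq_of_lt {f g : F} (hg : g ≠ 0) (h : v.ord f < v.ord g) (hf : f ≠ 0) :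
    v.ord (f + g) = v.ord f := by
  have hfg : f + g ≠ 0 := by
    intro h0
    have : g = -f := by linear_combination h0
    rw [this, ord_neg] at h
    exact lt_irrefl _ h
  apply le_antisymm
  · by_contra hcon
    rw [not_le] at hcon
    have h1 := ord_sub_ge v hfg hg (by simpa using hf)
    rw [add_sub_cancel_right] at h1
    have : v.ord f < min (v.ord (f + g)) (v.ord g) := lt_min hcon h
    omega
  · have := ord_add_ge v hf hg hfg
    rwa [min_eq_left h.le] at this

theorem ord_div {f g : F} (hf : f ≠ 0) (hg : g ≠ 0) : v.ord (f / g) = v.ord f - v.ord g := by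
  rw [div_eq_mul_inv, v.ord_mul hf (inv_ne_zero hg), v.ord_inv]
  ring

end Fermat.Agent.S24.ZP
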