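import Mathlib.RingTheory.DedekindDomain.AdicValuation
import Mathlib.RingTheory.Valuation.Discrete.Basic
import Fermat.Agent.S24.ZP.PlaceBasics

/-!
Places of a field `F` whose valuation ring contains a Dedekind domain `R` with fraction field `F`
correspond to the height one primes of `R` (S24, Part I).
-/

set_option autoImplicit false
open AlgebraicCurve IsDedekindDomain WithZero

namespace Fermat.Agent.S24.ZP

variable {K F : Type*} [Field K] [Field F] [Algebra K F]

section general
variable {R : Type*} [CommRing R] [IsDedekindDomain R] [Algebra R F] [IsFractionRing R F]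
  [Algebra K R] [IsScalarTower K R F]

theorem mem_ofHeightOneSpectrum_iff (w : HeightOneSpectrum R) (f : F) :
    f ∈ (Place.ofHeightOneSpectrum (K := K) (F := F) w).toValuationSubring ↔
      w.valuation F f ≤ 1 :=
  Iff.rfl

/-- The order function of the place attached to a height one prime is the adic order. -/
theorem ord_ofHeightOneSpectrum (w : HeightOneSpectrum R) (f : F) :
    (Place.ofHeightOneSpectrum (K := K) (F := F) w).ord f =
      -(WithZero.log (w.valuation F f)) := by
  set v := Place.ofHeightOneSpectrum (K := K) (F := F) w with hv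
  rcases eq_or_ne f 0 with rfl | hf
  · simp
  obtain ⟨π, hπ⟩ := w.valuation_exists_uniformizer F
  have hπ0 : π ≠ 0 := by
    intro h
    rw [h, map_zero] at hπ
    exact WithZero.zero_ne_coe hπ
  have hπpos : 0 < v.ord π := by
    rw [ord_pos_iff v hπ0, ValuationSubring.mem_nonunits_iff_or]
    right
    rw [mem_ofHeightOneSpectrum_iff, map_inv₀, hπ, ← WithZero.exp_neg, neg_neg,
      ← WithZero.exp_zero, WithZero.exp_le_exp]
    omega
  have hπ1 : v.ord π = 1 := by
    obtain ⟨ϖ, hϖ⟩ := IsDiscreteValuationRing.exists_irreducible v.toValuationSubring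
    have hϖ1 : v.ord (ϖ : F) = 1 := v.ord_coe_irreducible hϖ
    have hϖ0 : (ϖ : F) ≠ 0 := by
      intro h
      rw [h, v.ord_zero] at hϖ1
      exact zero_ne_one hϖ1
    have hϖmem : (ϖ : F) ∈ v.toValuationSubring.nonunits :=
      (ord_pos_iff v hϖ0).mp (by omega)
    have hwϖ : w.valuation F (ϖ : F) < 1 := by
      rw [ValuationSubring.mem_nonunits_iff_or] at hϖmem
      rcases hϖmem with h | h
      · exact absurd h hϖ0
      · rw [mem_ofHeightOneSpectrum_iff, map_inv₀, not_le] at h
        by_contra hcon
        rw [not_lt] at hcon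
        have := inv_le_one_of_one_le₀ hcon
        exact absurd this (not_le.mpr h)
    have hwϖ' : w.valuation F (ϖ : F) ≤ WithZero.exp (-1 : ℤ) := by
      have hne : w.valuation F (ϖ : F) ≠ 0 := (Valuation.ne_zero_iff _).mpr hϖ0
      rw [← WithZero.exp_log hne] at hwϖ ⊢
      rw [← WithZero.exp_zero, WithZero.exp_lt_exp] at hwϖ
      rw [WithZero.exp_le_exp]
      omega
    have hdiv : (ϖ : F) / π ∈ v.toValuationSubring := by
      rw [mem_ofHeightOneSpectrum_iff, map_div₀, hπ]
      exact (div_le_one₀ (by simp)).mpr hwϖ'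
    have := (ord_nonneg_iff v (div_ne_zero hϖ0 hπ0)).mpr hdiv
    rw [ord_div v hϖ0 hπ0] at this
    omega
  set n : ℤ := -(WithZero.log (w.valuation F f)) with hn
  have hwf : w.valuation F f = WithZero.exp (-n) := by
    rw [hn, neg_neg, WithZero.exp_log ((Valuation.ne_zero_iff _).mpr hf)]
  have hg0 : f / π ^ n ≠ 0 := div_ne_zero hf (zpow_ne_zero _ hπ0)
  have hwg : w.valuation F (f / π ^ n) = 1 := by
    rw [map_div₀, map_zpow₀, hπ, hwf, ← WithZero.exp_zsmul, smul_eq_mul]
    rw [div_eq_one_iff_eq (by simp)]
    congr 1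
    ring
  have h1 : 0 ≤ v.ord (f / π ^ n) :=
    (ord_nonneg_iff v hg0).mpr (by rw [mem_ofHeightOneSpectrum_iff, hwg])
  have h2 : 0 ≤ v.ord (f / π ^ n)⁻¹ :=
    (ord_nonneg_iff v (inv_ne_zero hg0)).mpr
      (by rw [mem_ofHeightOneSpectrum_iff, map_inv₀, hwg, inv_one])
  rw [v.ord_inv] at h2
  have h3 : v.ord (f / π ^ n) = 0 := by omega
  rw [ord_div v hf (zpow_ne_zero _ hπ0), v.ord_zpow, hπ1] at h3
  omega

/-- The ring hom from `R` to the valuation ring of a place containing it. -/
def toPlaceHom (v : Place K F) (h : ∀ r : R, algebraMap R F r ∈ v.toValuationSubring) :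
    R →+* v.toValuationSubring :=
  (algebraMap R F).codRestrict v.toValuationSubring.toSubring h

omit [IsDedekindDomain R] [IsFractionRing R F] [Algebra K R] [IsScalarTower K R F] in
@[simp] theorem coe_toPlaceHom (v : Place K F)
    (h : ∀ r : R, algebraMap R F r ∈ v.toValuationSubring) (r : R) :
    ((toPlaceHom v h r : v.toValuationSubring) : F) = algebraMap R F r := rfl

/-- The height one prime of `R` cut out by a place whose valuation ring contains `R`. -/
def primeOfPlace (v : Place K F) (h : ∀ r : R, algebraMap R F r ∈ v.toValuationSubring) :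
    HeightOneSpectrum R where
  asIdeal := Ideal.comap (toPlaceHom v h) (IsLocalRing.maximalIdeal v.toValuationSubring)
  isPrime := Ideal.comap_isPrime _ _
  ne_bot := by
    intro hbot
    apply v.ne_top'
    rw [eq_top_iff]
    intro f _
    obtain ⟨r, s, hs, rfl⟩ := IsFractionRing.div_surjective (A := R) f
    have hs0 : s ≠ 0 := nonZeroDivisors.ne_zero hs
    have hsu : IsUnit (toPlaceHom v h s) := by
      by_contra hnu
      have : s ∈ Ideal.comap (toPlaceHom v h) (IsLocalRing.maximalIdeal v.toValuationSubring) :=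
        hnu
      rw [hbot] at this
      exact hs0 this
    obtain ⟨u, hu⟩ := hsu
    have : algebraMap R F r / algebraMap R F s =
        ((toPlaceHom v h r * (u⁻¹ : (v.toValuationSubring)ˣ) : v.toValuationSubring) : F) := by
      have h1 : ((u : v.toValuationSubring) : F) = algebraMap R F s := by rw [hu]; rfl
      have h2 : ((u : v.toValuationSubring) : F) * (((u⁻¹ : (v.toValuationSubring)ˣ) :
          v.toValuationSubring) : F) = 1 := by
        rw [← MulMemClass.coe_mul, Units.mul_inv]; rfl
      rw [MulMemClass.coe_mul, coe_toPlaceHom, ← h1]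
      have hu0 : ((u : v.toValuationSubring) : F) ≠ 0 := left_ne_zero_of_mul_eq_one h2
      field_simp
      linear_combination (-(algebraMap R F r)) * h2
    rw [this]
    exact SetLike.coe_mem _

omit [Algebra K R] [IsScalarTower K R F] in
theorem mem_primeOfPlace_iff (v : Place K F)
    (h : ∀ r : R, algebraMap R F r ∈ v.toValuationSubring) (r : R) :
    r ∈ (primeOfPlace v h).asIdeal ↔ algebraMap R F r ∈ v.toValuationSubring.nonunits := by
  show toPlaceHom v h r ∈ IsLocalRing.maximalIdeal v.toValuationSubring ↔ _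
  rw [← ValuationSubring.coe_mem_nonunits_iff]
  rfl

theorem ofHeightOneSpectrum_primeOfPlace (v : Place K F)
    (h : ∀ r : R, algebraMap R F r ∈ v.toValuationSubring) :
    Place.ofHeightOneSpectrum (K := K) (F := F) (primeOfPlace v h) = v := by
  apply Place.ext
  rw [Place.ofHeightOneSpectrum_toValuationSubring,
    ← HeightOneSpectrum.valuationSubringAtPrime_eq_valuationSubring]
  refine ValuationSubring.eq_of_le_of_ne_top _ ?_ v.ne_top'
  rw [HeightOneSpectrum.valuationSubringAtPrime_eq_valuationSubring]
  intro f hf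
  rw [Valuation.mem_valuationSubring_iff] at hf
  obtain ⟨n, d, hnd⟩ := (primeOfPlace v h).exists_primeCompl_mul_eq_of_integer f hf
  have hd : (d : R) ∉ (primeOfPlace v h).asIdeal := d.2
  rw [mem_primeOfPlace_iff, ValuationSubring.mem_nonunits_iff_or, not_or, not_not] at hd
  have hd0 : algebraMap R F d ≠ 0 := hd.1
  have : f = algebraMap R F n * (algebraMap R F d)⁻¹ := by
    field_simp
    exact hnd
  rw [this]
  exact mul_mem (h n) hd.2

theorem algebraMap_mem_ofHeightOneSpectrum (w : HeightOneSpectrum R) (r : R) :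
    algebraMap R F r ∈ (Place.ofHeightOneSpectrum (K := K) (F := F) w).toValuationSubring := by
  rw [mem_ofHeightOneSpectrum_iff]
  exact w.valuation_le_one r

theorem primeOfPlace_ofHeightOneSpectrum (w : HeightOneSpectrum R) :
    primeOfPlace (Place.ofHeightOneSpectrum (K := K) (F := F) w)
      (algebraMap_mem_ofHeightOneSpectrum w) = w := by
  apply HeightOneSpectrum.ext
  ext r
  rw [mem_primeOfPlace_iff, ValuationSubring.mem_nonunits_iff_or]
  rcases eq_or_ne r 0 with rfl | hr
  · simp
  have hr0 : algebraMap R F r ≠ 0 := by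
    simpa using hr
  simp only [hr0, false_or]
  rw [mem_ofHeightOneSpectrum_iff, map_inv₀, ← w.valuation_lt_one_iff_mem (K := F), not_le]
  rw [one_lt_inv₀ (by simpa [Valuation.pos_iff] using hr0)]

/-- Order of an element of `R` at the place of a height one prime, via powers of the prime. -/
theorem le_ord_ofHeightOneSpectrum_iff (w : HeightOneSpectrum R) (r : R) (hr : r ≠ 0) (n : ℕ) :
    (n : ℤ) ≤ (Place.ofHeightOneSpectrum (K := K) (F := F) w).ord (algebraMap R F r) ↔
      r ∈ w.asIdeal ^ n := by
  rw [ord_ofHeightOneSpectrum, w.valuation_of_algebraMap, ← w.intValuation_le_pow_iff_mem]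
  have hne : w.intValuation r ≠ 0 := w.intValuation_ne_zero r hr
  rw [← WithZero.exp_log hne, WithZero.exp_le_exp, WithZero.log_exp]
  omega

end general

end Fermat.Agent.S24.ZP
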