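import Mathlib
import Fermat.Agent.S24.ZP.PlaceDedekind

/-!
The polynomial ring `K[y]` inside a function field `F`, its integral closure, and the maximal
ideal `(y)` (S24, Part I-b).
-/

set_option autoImplicit false
open IntermediateField Polynomial AlgebraicCurve IsDedekindDomain WithZero
open scoped IntermediateField.algebraAdjoinAdjoin

namespace Fermat.Agent.S24.ZP

variable {K F : Type*} [Field K] [Field F] [Algebra K F] (y : F)

/-- `K[y]` is isomorphic to the polynomial ring when `y` is transcendental. -/
noncomputable def polyEquiv (hy : Transcendental K y) : K[X] ≃ₐ[K] Algebra.adjoin K {y} :=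
  (AlgEquiv.ofInjective (aeval y) (transcendental_iff_injective.mp hy)).trans
    (Subalgebra.equivOfEq _ _ (Algebra.adjoin_singleton_eq_range_aeval K y).symm)

theorem isPrincipalIdealRing_adjoin (hy : Transcendental K y) :
    IsPrincipalIdealRing (Algebra.adjoin K {y}) :=
  IsPrincipalIdealRing.of_surjective (polyEquiv y hy).toRingEquiv.toRingHom
    (polyEquiv y hy).surjective

theorem adjoin_le_place (v : Place K F) (hv : y ∈ v.toValuationSubring)
    (a : Algebra.adjoin K {y}) : (a : F) ∈ v.toValuationSubring := by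
  have h : Algebra.adjoin K {y} ≤
      { v.toValuationSubring.toSubring with algebraMap_mem' := v.algebraMap_mem' } := by
    apply Algebra.adjoin_le
    rintro _ rfl
    exact hv
  exact h a.2

theorem integralClosure_le_place (v : Place K F) (hv : y ∈ v.toValuationSubring)
    (b : integralClosure (Algebra.adjoin K {y}) F) : (b : F) ∈ v.toValuationSubring := by
  obtain ⟨p, hp, hpb⟩ := b.2
  let φ : Algebra.adjoin K {y} →+* v.toValuationSubring :=
    (algebraMap (Algebra.adjoin K {y}) F).codRestrict v.toValuationSubring.toSubring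
      (adjoin_le_place y v hv)
  have h1 : IsIntegral v.toValuationSubring (b : F) := by
    refine ⟨p.map φ, hp.map _, ?_⟩
    rw [eval₂_map]
    exact hpb
  obtain ⟨z, hz⟩ := (IsIntegrallyClosed.isIntegral_iff (R := v.toValuationSubring) (K := F)).mp h1
  rw [← hz]
  exact z.2

/-- The generator `y` as an element of `K[y]`. -/
def yA : Algebra.adjoin K {y} := ⟨y, Algebra.subset_adjoin rfl⟩

@[simp] theorem coe_yA : ((yA (K := K) y : Algebra.adjoin K {y}) : F) = y := rfl

variable (K) in
/-- The ideal `(y)` of `K[y]`. -/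
def pY : Ideal (Algebra.adjoin K {y}) := Ideal.span {yA (K := K) y}

theorem yA_mem_pY : yA (K := K) y ∈ pY K y := Ideal.subset_span rfl

theorem exists_sub_mem_pY (a : Algebra.adjoin K {y}) :
    ∃ c : K, a - algebraMap K (Algebra.adjoin K {y}) c ∈ pY K y := by
  obtain ⟨a, ha⟩ := a
  induction ha using Algebra.adjoin_induction with
  | mem x hx =>
    refine ⟨0, ?_⟩
    rw [map_zero, sub_zero]
    obtain rfl : x = y := hx
    exact Ideal.subset_span rfl
  | algebraMap r =>
    refine ⟨r, ?_⟩
    have : (⟨algebraMap K F r, Subalgebra.algebraMap_mem _ r⟩ : Algebra.adjoin K {y}) =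
      algebraMap K (Algebra.adjoin K {y}) r := rfl
    rw [this, sub_self]
    exact Ideal.zero_mem _
  | add a b ha hb iha ihb =>
    obtain ⟨c, hc⟩ := iha
    obtain ⟨d, hd⟩ := ihb
    refine ⟨c + d, ?_⟩
    have : (⟨a + b, Subalgebra.add_mem _ ha hb⟩ : Algebra.adjoin K {y}) -
        algebraMap K (Algebra.adjoin K {y}) (c + d) =
        ((⟨a, ha⟩ : Algebra.adjoin K {y}) - algebraMap K _ c) +
        ((⟨b, hb⟩ : Algebra.adjoin K {y}) - algebraMap K _ d) := by
      rw [map_add]
      ext
      push_cast
      ring
    rw [this]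
    exact Ideal.add_mem _ hc hd
  | mul a b ha hb iha ihb =>
    obtain ⟨c, hc⟩ := iha
    obtain ⟨d, hd⟩ := ihb
    refine ⟨c * d, ?_⟩
    have : (⟨a * b, Subalgebra.mul_mem _ ha hb⟩ : Algebra.adjoin K {y}) -
        algebraMap K (Algebra.adjoin K {y}) (c * d) =
        ((⟨a, ha⟩ : Algebra.adjoin K {y}) - algebraMap K _ c) * (⟨b, hb⟩ : Algebra.adjoin K {y}) +
        algebraMap K _ c * ((⟨b, hb⟩ : Algebra.adjoin K {y}) - algebraMap K _ d) := by
      rw [map_mul]
      ext
      push_cast
      ring
    rw [this]
    exact Ideal.add_mem _ (Ideal.mul_mem_right _ _ hc) (Ideal.mul_mem_left _ _ hd)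

theorem one_notMem_pY (hy : Transcendental K y) : (1 : Algebra.adjoin K {y}) ∉ pY K y := by
  intro h
  obtain ⟨a, ha⟩ := Ideal.mem_span_singleton'.mp h
  obtain ⟨a, ha'⟩ := a
  have ha'' := ha'
  rw [Algebra.adjoin_singleton_eq_range_aeval] at ha''
  obtain ⟨P, rfl⟩ := ha''
  have h1 : aeval y (P * X - 1) = 0 := by
    have := congrArg (fun z : Algebra.adjoin K {y} => (z : F)) ha
    simp only [yA, MulMemClass.coe_mul, OneMemClass.coe_one] at this
    rw [map_sub, map_mul, aeval_X, map_one]
    exact sub_eq_zero.mpr this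
  have h2 := transcendental_iff.mp hy _ h1
  have h3 := congrArg (Polynomial.eval 0) h2
  simp at h3

theorem pY_isMaximal (hy : Transcendental K y) : (pY K y).IsMaximal := by
  rw [Ideal.isMaximal_iff]
  refine ⟨one_notMem_pY y hy, fun J x hIJ hxI hxJ => ?_⟩
  obtain ⟨c, hc⟩ := exists_sub_mem_pY y x
  have hc0 : c ≠ 0 := by
    rintro rfl
    rw [map_zero, sub_zero] at hc
    exact hxI hc
  have h1 : algebraMap K (Algebra.adjoin K {y}) c ∈ J := by
    have : algebraMap K (Algebra.adjoin K {y}) c = x - (x - algebraMap K _ c) := by ring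
    rw [this]
    exact J.sub_mem hxJ (hIJ hc)
  have h2 : (1 : Algebra.adjoin K {y}) =
      algebraMap K _ c⁻¹ * algebraMap K (Algebra.adjoin K {y}) c := by
    rw [← map_mul, inv_mul_cancel₀ hc0, map_one]
  rw [h2]
  exact J.mul_mem_left _ h1

theorem pY_ne_bot (hy : Transcendental K y) : pY K y ≠ ⊥ := by
  intro h
  have : yA (K := K) y ∈ pY K y := Ideal.subset_span rfl
  rw [h, Ideal.mem_bot] at this
  have h0 : y = 0 := congrArg Subtype.val this
  rw [h0] at hy
  exact hy (isAlgebraic_zero)

/-- The residue field of `(y)` is `K`. -/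
noncomputable def residueEquiv (hy : Transcendental K y) :
    K ≃+* (Algebra.adjoin K {y} ⧸ pY K y) :=
  RingEquiv.ofBijective ((Ideal.Quotient.mk (pY K y)).comp (algebraMap K (Algebra.adjoin K {y})))
    ⟨by
      haveI := pY_isMaximal y hy
      haveI : Nontrivial (Algebra.adjoin K {y} ⧸ pY K y) :=
        Ideal.Quotient.nontrivial_iff.mpr (pY_isMaximal y hy).ne_top
      exact RingHom.injective _,
     by
      intro z
      obtain ⟨a, rfl⟩ := Ideal.Quotient.mk_surjective z
      obtain ⟨c, hc⟩ := exists_sub_mem_pY y a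
      refine ⟨c, ?_⟩
      rw [RingHom.comp_apply]
      exact (Ideal.Quotient.eq.mpr hc).symm⟩

section
variable [CharZero K] [FiniteDimensional K⟮y⟯ F]

theorem isDedekindDomain_integralClosure (hy : Transcendental K y) :
    IsDedekindDomain (integralClosure (Algebra.adjoin K {y}) F) := by
  have := isPrincipalIdealRing_adjoin y hy
  exact IsIntegralClosure.isDedekindDomain (Algebra.adjoin K {y}) K⟮y⟯ F _

theorem isDedekindDomain_adjoin (hy : Transcendental K y) :
    IsDedekindDomain (Algebra.adjoin K {y}) := by
  have := isPrincipalIdealRing_adjoin y hy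
  infer_instance

theorem isFractionRing_integralClosure :
    IsFractionRing (integralClosure (Algebra.adjoin K {y}) F) F :=
  integralClosure.isFractionRing_of_finite_extension K⟮y⟯ F

theorem finite_integralClosure (hy : Transcendental K y) :
    Module.Finite (Algebra.adjoin K {y}) (integralClosure (Algebra.adjoin K {y}) F) := by
  have := isPrincipalIdealRing_adjoin y hy
  exact IsIntegralClosure.finite (Algebra.adjoin K {y}) K⟮y⟯ F _

theorem flat_integralClosure (hy : Transcendental K y) :
    Module.Flat (Algebra.adjoin K {y}) (integralClosure (Algebra.adjoin K {y}) F) := by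
  have := isPrincipalIdealRing_adjoin y hy
  infer_instance

theorem finrank_integralClosure :
    Module.finrank (Algebra.adjoin K {y}) (integralClosure (Algebra.adjoin K {y}) F) =
      Module.finrank K⟮y⟯ F := by
  have := isFractionRing_integralClosure (K := K) (F := F) y
  exact (IsFractionRing.finrank_eq (Algebra.adjoin K {y}) K⟮y⟯
    (integralClosure (Algebra.adjoin K {y}) F) F).symm

end

end Fermat.Agent.S24.ZP
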