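import Mathlib.RingTheory.Ideal.Norm.RelNorm

set_option autoImplicit false

namespace Fermat.Agent.S24.ZP

open Ideal

variable {R S : Type*} [CommRing R] [IsDedekindDomain R] [CommRing S] [IsDedekindDomain S]
  [Algebra R S] [Module.Finite R S] [Module.IsTorsionFree R S] [PerfectField (FractionRing R)]

/-- Multiplicity of a maximal ideal `p` in the relative norm of an ideal: sum over the primes
above `p` of the residue degree times the multiplicity. -/
theorem emultiplicity_relNorm (p : Ideal R) [hpmax : p.IsMaximal] (hp : p ≠ ⊥)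
    (T : Finset (Ideal S)) (hT : ∀ q : Ideal S, q ∈ T ↔ q.IsPrime ∧ q.under R = p)
    (I : Ideal S) (hI : I ≠ ⊥) :
    emultiplicity p (Ideal.relNorm R I) =
      ∑ q ∈ T, (q.inertiaDeg R : ℕ∞) * emultiplicity q I := by
  have hpprime : Prime p := (Ideal.prime_iff_isPrime hp).mpr hpmax.isPrime
  have hpunit : ¬ IsUnit p := hpprime.not_isUnit
  have hTprime : ∀ q ∈ T, Prime q := by
    intro q hq
    obtain ⟨hq1, hq2⟩ := (hT q).mp hq
    refine (Ideal.prime_iff_isPrime ?_).mpr hq1
    rintro rfl
    apply hp
    rw [← hq2]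
    exact Ideal.under_bot R S
  revert hI
  induction I using UniqueFactorizationMonoid.induction_on_prime with
  | h₁ => intro h; exact absurd rfl h
  | h₂ x hx =>
    intro _
    rw [emultiplicity_of_isUnit_right hpunit (hx.map (Ideal.relNorm R))]
    symm
    apply Finset.sum_eq_zero
    intro q hq
    rw [emultiplicity_of_isUnit_right (hTprime q hq).not_isUnit hx, mul_zero]
  | h₃ J Q hJ hQ ih =>
    intro _
    have ih' := ih hJ
    rw [map_mul, emultiplicity_mul hpprime, ih']
    have hsum : ∑ q ∈ T, (q.inertiaDeg R : ℕ∞) * emultiplicity q (Q * J) =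
        ∑ q ∈ T, (q.inertiaDeg R : ℕ∞) * emultiplicity q Q +
          ∑ q ∈ T, (q.inertiaDeg R : ℕ∞) * emultiplicity q J := by
      rw [← Finset.sum_add_distrib]
      apply Finset.sum_congr rfl
      intro q hq
      rw [emultiplicity_mul (hTprime q hq), mul_add]
    rw [hsum]
    congr 1
    -- the prime case
    have hQ0 : Q ≠ ⊥ := hQ.ne_zero
    have hQprime : Q.IsPrime := (Ideal.prime_iff_isPrime hQ0).mp hQ
    have hQmax : Q.IsMaximal := hQprime.isMaximal hQ0
    have hp'max : (Q.under R).IsMaximal := Ideal.IsMaximal.under R Q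
    have hrel := Ideal.relNorm_eq_pow_of_isMaximal Q (Q.under R)
    rw [hrel]
    have hdiff : ∀ q ∈ T, q ≠ Q → emultiplicity q Q = 0 := by
      intro q hq hne
      rw [emultiplicity_eq_zero, Ideal.dvd_iff_le]
      intro hle
      have hqprime : q.IsPrime := ((hT q).mp hq).1
      exact hne (hQmax.eq_of_le hqprime.ne_top hle).symm
    by_cases hpQ : Q.under R = p
    · have hQT : Q ∈ T := (hT Q).mpr ⟨hQprime, hpQ⟩
      rw [hpQ, emultiplicity_pow_self hp hpunit]
      rw [Finset.sum_eq_single Q]
      · have : emultiplicity Q Q = 1 := by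
          have := emultiplicity_pow_self hQ0 hQ.not_isUnit 1
          rwa [pow_one, Nat.cast_one] at this
        rw [this, mul_one]
      · intro q hq hne
        rw [hdiff q hq hne, mul_zero]
      · intro h
        exact absurd hQT h
    · have h0 : emultiplicity p ((Q.under R) ^ Q.inertiaDeg R) = 0 := by
        rw [emultiplicity_eq_zero]
        intro hdvd
        have h1 := hpprime.dvd_of_dvd_pow hdvd
        rw [Ideal.dvd_iff_le] at h1
        exact hpQ (hp'max.eq_of_le hpmax.ne_top h1)
      rw [h0]
      symm
      apply Finset.sum_eq_zero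
      intro q hq
      have hne : q ≠ Q := by
        rintro rfl
        exact hpQ ((hT q).mp hq).2
      rw [hdiff q hq hne, mul_zero]

end Fermat.Agent.S24.ZP
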