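import Mathlib
import Fermat.Agent.S24.ZP.PlaceDedekind
import Fermat.Agent.S24.PlaceCount
import Fermat.Agent.S24.ZP.RelNormMult

/-!
Zero places of an element `t` of a Dedekind domain `R` with fraction field `F`: finiteness,
approximation, and the order of a norm (general form; S24, Part I-b).
-/

set_option autoImplicit false
open AlgebraicCurve IsDedekindDomain WithZero

namespace Fermat.Agent.S24.ZP

variable {K F : Type*} [Field K] [Field F] [Algebra K F]

section general
variable {R : Type*} [CommRing R] [IsDedekindDomain R] [Algebra R F] [IsFractionRing R F]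
  [Algebra K R] [IsScalarTower K R F]

/-- Places at which `y = t` has a zero correspond to the primes of `R` containing `t`. -/
noncomputable def zeroPlaceEquiv (t : R) (ht : t ≠ 0)
    (hle : ∀ v : Place K F, 0 < v.ord (algebraMap R F t) →
      ∀ r : R, algebraMap R F r ∈ v.toValuationSubring) :
    ZeroPlace K (algebraMap R F t) ≃ {w : HeightOneSpectrum R // t ∈ w.asIdeal} where
  toFun v := ⟨primeOfPlace v.1 (hle v.1 v.2), by
    rw [mem_primeOfPlace_iff]
    exact (ord_pos_iff v.1 (by simpa using ht)).mp v.2⟩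
  invFun w := ⟨Place.ofHeightOneSpectrum (K := K) (F := F) w.1, by
    have := (le_ord_ofHeightOneSpectrum_iff (K := K) (F := F) w.1 t ht 1).mpr
      (by simpa using w.2)
    have h1 : ((1 : ℕ) : ℤ) = 1 := rfl
    omega⟩
  left_inv v := Subtype.ext (ofHeightOneSpectrum_primeOfPlace v.1 _)
  right_inv w := Subtype.ext (primeOfPlace_ofHeightOneSpectrum w.1)

theorem zeroPlaceEquiv_symm_coe (t : R) (ht : t ≠ 0)
    (hle : ∀ v : Place K F, 0 < v.ord (algebraMap R F t) →
      ∀ r : R, algebraMap R F r ∈ v.toValuationSubring)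
    (w : {w : HeightOneSpectrum R // t ∈ w.asIdeal}) :
    (((zeroPlaceEquiv t ht hle).symm w : ZeroPlace K (algebraMap R F t)) : Place K F) =
      Place.ofHeightOneSpectrum (K := K) (F := F) w.1 := rfl

omit [Algebra R F] [IsFractionRing R F] [Algebra K R] [IsScalarTower K R F] in
theorem finite_primes_mem (t : R) (ht : t ≠ 0) :
    Finite {w : HeightOneSpectrum R // t ∈ w.asIdeal} := by
  have h := Ideal.finite_factors (R := R) (I := Ideal.span {t})
    (by simpa [Ideal.span_singleton_eq_bot] using ht)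
  have : {w : HeightOneSpectrum R | t ∈ w.asIdeal} ⊆
      {v : HeightOneSpectrum R | v.asIdeal ∣ Ideal.span {t}} := by
    intro w hw
    simp only [Set.mem_ofPred_eq, Ideal.dvd_span_singleton]
    exact hw
  exact (h.subset this).to_subtype

theorem finite_zeroPlace (t : R) (ht : t ≠ 0)
    (hle : ∀ v : Place K F, 0 < v.ord (algebraMap R F t) →
      ∀ r : R, algebraMap R F r ∈ v.toValuationSubring) :
    Finite (ZeroPlace K (algebraMap R F t)) := by
  have := finite_primes_mem t ht
  exact Finite.of_equiv _ (zeroPlaceEquiv (K := K) (F := F) t ht hle).symm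

/-- Chinese remainder theorem: an element of order one at a given prime and order zero at
finitely many other primes. -/
theorem exists_ord_eq_one (S : Set (HeightOneSpectrum R)) (hS : S.Finite)
    (w₀ : HeightOneSpectrum R) :
    ∃ r : R, r ≠ 0 ∧
      (Place.ofHeightOneSpectrum (K := K) (F := F) w₀).ord (algebraMap R F r) = 1 ∧
      ∀ w ∈ S, w ≠ w₀ →
        (Place.ofHeightOneSpectrum (K := K) (F := F) w).ord (algebraMap R F r) = 0 := by
  classical
  obtain ⟨π, hπ⟩ := w₀.intValuation_exists_uniformizer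
  have hπ1 : π ∈ w₀.asIdeal := by
    rw [← w₀.intValuation_lt_one_iff_mem, hπ, ← WithZero.exp_zero, WithZero.exp_lt_exp]
    omega
  have hπ2 : π ∉ w₀.asIdeal ^ 2 := by
    rw [← w₀.intValuation_le_pow_iff_mem, hπ, WithZero.exp_le_exp]
    omega
  let s : Finset (HeightOneSpectrum R) := insert w₀ hS.toFinset
  obtain ⟨r, hr⟩ := IsDedekindDomain.exists_forall_sub_mem_ideal (s := s)
    (fun w => w.asIdeal) (fun w => if w = w₀ then 2 else 1) (fun w _ => w.prime)
    (fun w _ w' _ h hww => h (HeightOneSpectrum.ext hww))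
    (fun w => if w.1 = w₀ then π else 1)
  have hr0 := hr w₀ (Finset.mem_insert_self _ _)
  simp only [if_true] at hr0
  have hrw₀ : r ∈ w₀.asIdeal := by
    have : r = (r - π) + π := by ring
    rw [this]
    exact Ideal.add_mem _ (Ideal.pow_le_self two_ne_zero hr0) hπ1
  have hrw₀' : r ∉ w₀.asIdeal ^ 2 := by
    intro h
    apply hπ2
    have : π = r - (r - π) := by ring
    rw [this]
    exact Ideal.sub_mem _ h hr0
  have hrne : r ≠ 0 := by
    rintro rfl
    exact hrw₀' (Ideal.zero_mem _)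
  refine ⟨r, hrne, ?_, ?_⟩
  · have h1 := (le_ord_ofHeightOneSpectrum_iff (K := K) (F := F) w₀ r hrne 1).mpr
      (by simpa using hrw₀)
    have h2 := (le_ord_ofHeightOneSpectrum_iff (K := K) (F := F) w₀ r hrne 2).not.mpr hrw₀'
    push_cast at h1 h2
    omega
  · intro w hw hne
    have hws : w ∈ s := Finset.mem_insert_of_mem (hS.mem_toFinset.mpr hw)
    have hrw := hr w hws
    simp only [if_neg hne, pow_one] at hrw
    have hrw' : r ∉ w.asIdeal := by
      intro h
      have : (1 : R) = r - (r - 1) := by ring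
      have h1 : (1 : R) ∈ w.asIdeal := by
        rw [this]
        exact Ideal.sub_mem _ h hrw
      exact w.isPrime.ne_top ((Ideal.eq_top_iff_one _).mpr h1)
    have h0 := (le_ord_ofHeightOneSpectrum_iff (K := K) (F := F) w r hrne 0).mpr (by simp)
    have h1 := (le_ord_ofHeightOneSpectrum_iff (K := K) (F := F) w r hrne 1).not.mpr
      (by simpa using hrw')
    push_cast at h0 h1
    omega

theorem emultiplicity_eq_ord (w : HeightOneSpectrum R) (r : R) (hr : r ≠ 0) :
    emultiplicity w.asIdeal (Ideal.span {r}) =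
      (((Place.ofHeightOneSpectrum (K := K) (F := F) w).ord (algebraMap R F r)).toNat : ℕ∞) := by
  have h0 := (le_ord_ofHeightOneSpectrum_iff (K := K) (F := F) w r hr 0).mpr (by simp)
  push_cast at h0
  rw [emultiplicity_eq_coe]
  constructor
  · rw [Ideal.dvd_span_singleton, ← le_ord_ofHeightOneSpectrum_iff (K := K) (F := F) w r hr]
    omega
  · rw [Ideal.dvd_span_singleton, ← le_ord_ofHeightOneSpectrum_iff (K := K) (F := F) w r hr]
    push_cast
    omega

section norm
variable {A₀ : Type*} [CommRing A₀] [IsDedekindDomain A₀] [Algebra A₀ R]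
  [Algebra A₀ F] [IsScalarTower A₀ R F] [Module.IsTorsionFree A₀ R]

/-- The order of an element of the base ring at a place over the maximal ideal `(t₀)` is the
order of `t₀` times the multiplicity of `(t₀)`. -/
theorem ord_algebraMap_base (t₀ : A₀) (ht₀ : t₀ ≠ 0) (hmax : (Ideal.span {t₀}).IsMaximal)
    (v : Place K F) (hle : ∀ r : R, algebraMap R F r ∈ v.toValuationSubring)
    (hv : 0 < v.ord (algebraMap A₀ F t₀)) (a : A₀) (ha : a ≠ 0) :
    ∃ k : ℕ, emultiplicity (Ideal.span {t₀}) (Ideal.span {a}) = k ∧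
      v.ord (algebraMap A₀ F a) = v.ord (algebraMap A₀ F t₀) * k := by
  have hp0 : Ideal.span {t₀} ≠ (⊥ : Ideal A₀) := by
    simpa [Ideal.span_singleton_eq_bot] using ht₀
  have hprime : Prime (Ideal.span {t₀}) := (Ideal.prime_iff_isPrime hp0).mpr hmax.isPrime
  have ha0 : Ideal.span {a} ≠ (⊥ : Ideal A₀) := by
    simpa [Ideal.span_singleton_eq_bot] using ha
  have hfin : FiniteMultiplicity (Ideal.span {t₀}) (Ideal.span {a}) :=
    FiniteMultiplicity.of_prime_left hprime ha0
  refine ⟨multiplicity (Ideal.span {t₀}) (Ideal.span {a}), hfin.emultiplicity_eq_multiplicity, ?_⟩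
  generalize hk : multiplicity (Ideal.span {t₀}) (Ideal.span {a}) = k
  have h1 : Ideal.span {t₀} ^ k ∣ Ideal.span {a} := hk ▸ pow_multiplicity_dvd _ _
  have h2 : ¬ Ideal.span {t₀} ^ (k + 1) ∣ Ideal.span {a} :=
    hfin.not_pow_dvd_of_multiplicity_lt (hk ▸ Nat.lt_succ_self _)
  rw [Ideal.span_singleton_pow, Ideal.dvd_span_singleton, Ideal.mem_span_singleton] at h1 h2
  obtain ⟨a', hae⟩ := h1
  have ha' : ¬ t₀ ∣ a' := by
    intro h
    apply h2
    rw [pow_succ, hae]
    exact mul_dvd_mul_left _ h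
  have ha'0 : a' ≠ 0 := by
    rintro rfl
    exact ha' (dvd_zero _)
  have hinj : Function.Injective (algebraMap A₀ F) := by
    rw [IsScalarTower.algebraMap_eq A₀ R F]
    exact (IsFractionRing.injective R F).comp (FaithfulSMul.algebraMap_injective A₀ R)
  have hmemA : ∀ a : A₀, algebraMap A₀ F a ∈ v.toValuationSubring := by
    intro a
    rw [IsScalarTower.algebraMap_apply A₀ R F]
    exact hle _
  have hne : ∀ a : A₀, a ≠ 0 → algebraMap A₀ F a ≠ 0 := fun a h =>
    (map_ne_zero_iff _ hinj).mpr h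
  -- `a'` is a unit at `v`
  have hunit : v.ord (algebraMap A₀ F a') = 0 := by
    have h0 : 0 ≤ v.ord (algebraMap A₀ F a') := (ord_nonneg_iff v (hne a' ha'0)).mpr (hmemA a')
    by_contra hcon
    have hpos : 0 < v.ord (algebraMap A₀ F a') := by omega
    -- the ideal of elements of positive order
    let P : Ideal A₀ := Ideal.comap (algebraMap A₀ R) (primeOfPlace v hle).asIdeal
    have hmemP : ∀ a : A₀, a ≠ 0 → (a ∈ P ↔ 0 < v.ord (algebraMap A₀ F a)) := by
      intro a ha
      rw [Ideal.mem_comap, mem_primeOfPlace_iff, ← IsScalarTower.algebraMap_apply,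
        ord_pos_iff v (hne a ha)]
    have hPne : P ≠ ⊤ := (Ideal.comap_isPrime _ _).ne_top
    have hle' : Ideal.span {t₀} ≤ P := by
      rw [Ideal.span_singleton_le_iff_mem]
      exact (hmemP t₀ ht₀).mpr hv
    have hPeq : Ideal.span {t₀} = P := hmax.eq_of_le hPne hle'
    have : a' ∈ Ideal.span {t₀} := by
      rw [hPeq]
      exact (hmemP a' ha'0).mpr hpos
    exact ha' (Ideal.mem_span_singleton.mp this)
  rw [hae, map_mul, map_pow, v.ord_mul (pow_ne_zero _ (hne t₀ ht₀)) (hne a' ha'0), ord_pow,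
    hunit, add_zero, mul_comm]

variable [Module.Finite A₀ R] [PerfectField (FractionRing A₀)]
  {L₀ : Type*} [Field L₀] [Algebra A₀ L₀] [IsFractionRing A₀ L₀] [Algebra L₀ F]
  [IsScalarTower A₀ L₀ F] [IsIntegralClosure R A₀ F] [FiniteDimensional L₀ F]

/-- The order of the norm of an element of `R`. -/
theorem ord_norm_algebraMap (t₀ : A₀) (ht₀ : t₀ ≠ 0) (hmax : (Ideal.span {t₀}).IsMaximal)
    (hdeg : ∀ q : Ideal R, q.IsPrime → q.under A₀ = Ideal.span {t₀} → q.inertiaDeg A₀ = 1)
    (hle : ∀ v : Place K F, 0 < v.ord (algebraMap R F (algebraMap A₀ R t₀)) →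
      ∀ r : R, algebraMap R F r ∈ v.toValuationSubring)
    (v' : Place K F) (hv' : 0 < v'.ord (algebraMap R F (algebraMap A₀ R t₀)))
    (r : R) (hr : r ≠ 0) :
    v'.ord (algebraMap L₀ F (Algebra.norm L₀ (algebraMap R F r))) =
      v'.ord (algebraMap R F (algebraMap A₀ R t₀)) *
        ∑ᶠ v : ZeroPlace K (algebraMap R F (algebraMap A₀ R t₀)), v.1.ord (algebraMap R F r) := by
  classical
  have hinjAR : Function.Injective (algebraMap A₀ R) := FaithfulSMul.algebraMap_injective A₀ R
  set t : R := algebraMap A₀ R t₀ with ht_def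
  have ht : t ≠ 0 := (map_ne_zero_iff _ hinjAR).mpr ht₀
  have hp0 : Ideal.span {t₀} ≠ (⊥ : Ideal A₀) := by
    simpa [Ideal.span_singleton_eq_bot] using ht₀
  -- the sum over places as a sum over primes
  have hfinw := finite_primes_mem t ht
  let _ : Fintype {w : HeightOneSpectrum R // t ∈ w.asIdeal} := Fintype.ofFinite _
  have hsum1 : ∑ᶠ v : ZeroPlace K (algebraMap R F t), v.1.ord (algebraMap R F r) =
      ∑ w : {w : HeightOneSpectrum R // t ∈ w.asIdeal},
        (Place.ofHeightOneSpectrum (K := K) (F := F) w.1).ord (algebraMap R F r) := by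
    rw [← finsum_comp_equiv (zeroPlaceEquiv (K := K) (F := F) t ht hle).symm,
      finsum_eq_sum_of_fintype]
    rfl
  rw [hsum1]
  -- the norm
  have hnorm : algebraMap L₀ F (Algebra.norm L₀ (algebraMap R F r)) =
      algebraMap A₀ F (Algebra.intNorm A₀ R r) := by
    rw [IsScalarTower.algebraMap_apply A₀ L₀ F, Algebra.algebraMap_intNorm (L := F)]
  rw [hnorm]
  have hrel : Ideal.span {Algebra.intNorm A₀ R r} = Ideal.relNorm A₀ (Ideal.span {r}) :=
    (Ideal.relNorm_singleton A₀ r).symm
  have hr0 : Ideal.span {r} ≠ (⊥ : Ideal R) := by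
    simpa [Ideal.span_singleton_eq_bot] using hr
  have hN0 : Algebra.intNorm A₀ R r ≠ 0 := by
    intro h
    rw [h, Ideal.span_singleton_eq_bot.mpr rfl] at hrel
    exact hr0 (Ideal.relNorm_eq_bot_iff.mp hrel.symm)
  have hv'' : 0 < v'.ord (algebraMap A₀ F t₀) := by
    rw [IsScalarTower.algebraMap_apply A₀ R F]
    exact hv'
  obtain ⟨k, hk1, hk2⟩ := ord_algebraMap_base (R := R) t₀ ht₀ hmax v' (hle v' hv') hv''
    (Algebra.intNorm A₀ R r) hN0
  rw [hk2, ← IsScalarTower.algebraMap_apply A₀ R F]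
  congr 1
  -- the set of primes above
  let T : Finset (Ideal R) := (Finset.univ : Finset {w : HeightOneSpectrum R // t ∈ w.asIdeal}).image
    (fun w => w.1.asIdeal)
  have hT : ∀ q : Ideal R, q ∈ T ↔ q.IsPrime ∧ q.under A₀ = Ideal.span {t₀} := by
    intro q
    simp only [T, Finset.mem_image, Finset.mem_univ, true_and, Subtype.exists, exists_prop]
    constructor
    · rintro ⟨w, hw, rfl⟩
      refine ⟨w.isPrime, ?_⟩
      have h1 : Ideal.span {t₀} ≤ w.asIdeal.under A₀ := by
        rw [Ideal.span_singleton_le_iff_mem, Ideal.under_def, Ideal.mem_comap]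
        exact hw
      have h2 : w.asIdeal.under A₀ ≠ ⊤ := (Ideal.comap_isPrime _ _).ne_top
      exact (hmax.eq_of_le h2 h1).symm
    · rintro ⟨hq1, hq2⟩
      have hq0 : q ≠ ⊥ := by
        rintro rfl
        apply hp0
        rw [← hq2]
        exact Ideal.under_bot A₀ R
      refine ⟨⟨q, hq1, hq0⟩, ?_, rfl⟩
      have : t₀ ∈ q.under A₀ := by
        rw [hq2]
        exact Ideal.subset_span rfl
      exact this
  have hmain := emultiplicity_relNorm (Ideal.span {t₀}) hp0 T hT (Ideal.span {r}) hr0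
  rw [← hrel, hk1] at hmain
  have hinjT : Set.InjOn (fun w : {w : HeightOneSpectrum R // t ∈ w.asIdeal} => w.1.asIdeal)
      (Finset.univ : Finset {w : HeightOneSpectrum R // t ∈ w.asIdeal}) := by
    intro w _ w' _ h
    exact Subtype.ext (HeightOneSpectrum.ext h)
  rw [Finset.sum_image hinjT] at hmain
  have hterm : ∀ w : {w : HeightOneSpectrum R // t ∈ w.asIdeal},
      ((w.1.asIdeal.inertiaDeg A₀ : ℕ) : ℕ∞) * emultiplicity w.1.asIdeal (Ideal.span {r}) =
      (((Place.ofHeightOneSpectrum (K := K) (F := F) w.1).ord (algebraMap R F r)).toNat : ℕ∞) := by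
    intro w
    rw [hdeg w.1.asIdeal w.1.isPrime ((hT _).mp (Finset.mem_image_of_mem _ (Finset.mem_univ w))).2,
      Nat.cast_one, one_mul, emultiplicity_eq_ord (K := K) (F := F) w.1 r hr]
  rw [Finset.sum_congr rfl (fun w _ => hterm w), ← Nat.cast_sum, Nat.cast_inj] at hmain
  rw [hmain, Nat.cast_sum]
  apply Finset.sum_congr rfl
  intro w _
  have h0 := (le_ord_ofHeightOneSpectrum_iff (K := K) (F := F) w.1 r hr 0).mpr (by simp)
  push_cast at h0
  exact Int.toNat_of_nonneg h0

end norm
end general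

section general2
variable {R : Type*} [CommRing R] [IsDedekindDomain R] [Algebra R F] [IsFractionRing R F]
  [Algebra K R] [IsScalarTower K R F]

theorem approx_zeroPlace (t : R) (ht : t ≠ 0)
    (hle : ∀ v : Place K F, 0 < v.ord (algebraMap R F t) →
      ∀ r : R, algebraMap R F r ∈ v.toValuationSubring)
    (v : Place K F) (hv : 0 < v.ord (algebraMap R F t)) :
    ∃ f : F, f ≠ 0 ∧ v.ord f = 1 ∧
      ∀ v' : Place K F, 0 < v'.ord (algebraMap R F t) → v' ≠ v → v'.ord f = 0 := by
  have hfin : {w : HeightOneSpectrum R | t ∈ w.asIdeal}.Finite := by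
    have : Finite ↥{w : HeightOneSpectrum R | t ∈ w.asIdeal} := finite_primes_mem t ht
    exact Set.toFinite _
  obtain ⟨r, hr0, hr1, hr2⟩ := exists_ord_eq_one (K := K) (F := F) _ hfin (primeOfPlace v (hle v hv))
  refine ⟨algebraMap R F r, by simpa using hr0, ?_, ?_⟩
  · rw [ofHeightOneSpectrum_primeOfPlace] at hr1
    exact hr1
  · intro v' hv' hne
    have hmem : primeOfPlace v' (hle v' hv') ∈ {w : HeightOneSpectrum R | t ∈ w.asIdeal} := by
      show t ∈ (primeOfPlace v' (hle v' hv')).asIdeal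
      rw [mem_primeOfPlace_iff]
      exact (ord_pos_iff v' (by simpa using ht)).mp hv'
    have hne' : primeOfPlace v' (hle v' hv') ≠ primeOfPlace v (hle v hv) := by
      intro h
      apply hne
      rw [← ofHeightOneSpectrum_primeOfPlace v' (hle v' hv'), h,
        ofHeightOneSpectrum_primeOfPlace]
    have := hr2 _ hmem hne'
    rw [ofHeightOneSpectrum_primeOfPlace] at this
    exact this

section norm2
variable {A₀ : Type*} [CommRing A₀] [IsDedekindDomain A₀] [Algebra A₀ R]
  [Algebra A₀ F] [IsScalarTower A₀ R F] [Module.IsTorsionFree A₀ R]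
  [Module.Finite A₀ R] [PerfectField (FractionRing A₀)]
  {L₀ : Type*} [Field L₀] [Algebra A₀ L₀] [IsFractionRing A₀ L₀] [Algebra L₀ F]
  [IsScalarTower A₀ L₀ F] [IsIntegralClosure R A₀ F] [FiniteDimensional L₀ F]

/-- The order of the norm of an arbitrary nonzero element of `F`. -/
theorem ord_norm_general (t₀ : A₀) (ht₀ : t₀ ≠ 0) (hmax : (Ideal.span {t₀}).IsMaximal)
    (hdeg : ∀ q : Ideal R, q.IsPrime → q.under A₀ = Ideal.span {t₀} → q.inertiaDeg A₀ = 1)
    (hle : ∀ v : Place K F, 0 < v.ord (algebraMap R F (algebraMap A₀ R t₀)) →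
      ∀ r : R, algebraMap R F r ∈ v.toValuationSubring)
    (v' : Place K F) (hv' : 0 < v'.ord (algebraMap R F (algebraMap A₀ R t₀)))
    (f : F) (hf : f ≠ 0) :
    v'.ord (algebraMap L₀ F (Algebra.norm L₀ f)) =
      v'.ord (algebraMap R F (algebraMap A₀ R t₀)) *
        ∑ᶠ v : ZeroPlace K (algebraMap R F (algebraMap A₀ R t₀)), v.1.ord f := by
  have hinjAR : Function.Injective (algebraMap A₀ R) := FaithfulSMul.algebraMap_injective A₀ R
  have ht : algebraMap A₀ R t₀ ≠ 0 := (map_ne_zero_iff _ hinjAR).mpr ht₀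
  have hfinZ := finite_zeroPlace (K := K) (F := F) (algebraMap A₀ R t₀) ht hle
  obtain ⟨r, s, hs, hrs⟩ := IsFractionRing.div_surjective (A := R) f
  have hs0 : s ≠ 0 := nonZeroDivisors.ne_zero hs
  have hsF : algebraMap R F s ≠ 0 := by simpa using hs0
  have hfs : f * algebraMap R F s = algebraMap R F r := by
    rw [← hrs]
    field_simp
  have hrF : algebraMap R F r ≠ 0 := by
    rw [← hfs]
    exact mul_ne_zero hf hsF
  have hr0 : r ≠ 0 := by
    rintro rfl
    simp at hrF
  have hNf : algebraMap L₀ F (Algebra.norm L₀ f) ≠ 0 := by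
    simpa [Algebra.norm_eq_zero_iff] using hf
  have hNs : algebraMap L₀ F (Algebra.norm L₀ (algebraMap R F s)) ≠ 0 := by
    simpa [Algebra.norm_eq_zero_iff] using hs0
  have hN : algebraMap L₀ F (Algebra.norm L₀ f) *
      algebraMap L₀ F (Algebra.norm L₀ (algebraMap R F s)) =
      algebraMap L₀ F (Algebra.norm L₀ (algebraMap R F r)) := by
    rw [← map_mul, ← map_mul, hfs]
  have h1 := ord_norm_algebraMap (L₀ := L₀) t₀ ht₀ hmax hdeg hle v' hv' r hr0
  have h2 := ord_norm_algebraMap (L₀ := L₀) t₀ ht₀ hmax hdeg hle v' hv' s hs0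
  rw [← hN, v'.ord_mul hNf hNs, h2] at h1
  have h3 : ∑ᶠ v : ZeroPlace K (algebraMap R F (algebraMap A₀ R t₀)), v.1.ord (algebraMap R F r) =
      ∑ᶠ v : ZeroPlace K (algebraMap R F (algebraMap A₀ R t₀)), v.1.ord f +
      ∑ᶠ v : ZeroPlace K (algebraMap R F (algebraMap A₀ R t₀)), v.1.ord (algebraMap R F s) := by
    rw [← finsum_add_distrib (Set.toFinite _) (Set.toFinite _)]
    apply finsum_congr
    intro v
    rw [← hfs, v.1.ord_mul hf hsF]
  rw [h3] at h1
  linarith

end norm2
end general2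

section general3
variable {R : Type*} [CommRing R] [IsDedekindDomain R] [Algebra R F] [IsFractionRing R F]
  [Algebra K R] [IsScalarTower K R F]

theorem finite_zeroPlace' (t : R) (ht : t ≠ 0) (y : F) (hty : algebraMap R F t = y)
    (hle : ∀ v : Place K F, 0 < v.ord y → ∀ r : R, algebraMap R F r ∈ v.toValuationSubring) :
    Finite (ZeroPlace K y) := by
  subst hty
  exact finite_zeroPlace t ht hle

theorem approx_zeroPlace' (t : R) (ht : t ≠ 0) (y : F) (hty : algebraMap R F t = y)
    (hle : ∀ v : Place K F, 0 < v.ord y → ∀ r : R, algebraMap R F r ∈ v.toValuationSubring)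
    (v : Place K F) (hv : 0 < v.ord y) :
    ∃ f : F, f ≠ 0 ∧ v.ord f = 1 ∧
      ∀ v' : Place K F, 0 < v'.ord y → v' ≠ v → v'.ord f = 0 := by
  subst hty
  exact approx_zeroPlace t ht hle v hv

section norm3
variable {A₀ : Type*} [CommRing A₀] [IsDedekindDomain A₀] [Algebra A₀ R]
  [Algebra A₀ F] [IsScalarTower A₀ R F] [Module.IsTorsionFree A₀ R]
  [Module.Finite A₀ R] [PerfectField (FractionRing A₀)]
  {L₀ : Type*} [Field L₀] [Algebra A₀ L₀] [IsFractionRing A₀ L₀] [Algebra L₀ F]
  [IsScalarTower A₀ L₀ F] [IsIntegralClosure R A₀ F] [FiniteDimensional L₀ F]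

theorem ord_norm_general' (t₀ : A₀) (ht₀ : t₀ ≠ 0) (hmax : (Ideal.span {t₀}).IsMaximal)
    (hdeg : ∀ q : Ideal R, q.IsPrime → q.under A₀ = Ideal.span {t₀} → q.inertiaDeg A₀ = 1)
    (y : F) (hty : algebraMap R F (algebraMap A₀ R t₀) = y)
    (hle : ∀ v : Place K F, 0 < v.ord y → ∀ r : R, algebraMap R F r ∈ v.toValuationSubring)
    (v' : Place K F) (hv' : 0 < v'.ord y) (f : F) (hf : f ≠ 0) :
    v'.ord (algebraMap L₀ F (Algebra.norm L₀ f)) =
      v'.ord y * ∑ᶠ v : ZeroPlace K y, v.1.ord f := by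
  subst hty
  exact ord_norm_general t₀ ht₀ hmax hdeg hle v' hv' f hf

end norm3
end general3

end Fermat.Agent.S24.ZP
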