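import Mathlib
import Fermat.Agent.S24.ZP.PlaceSum
import Fermat.Agent.S24.ZP.ZeroPlacesGen

/-!
`ZeroPlacesData K y` for a transcendental element `y` of a function field `F` over an
algebraically closed field `K` of characteristic zero with `F / K(y)` finite (S24, Part I-b).
This is the input of the place counting theorem `Fermat.Agent.S24.placeCount`.
-/

set_option autoImplicit false
open IntermediateField Polynomial AlgebraicCurve IsDedekindDomain WithZero
open scoped IntermediateField.algebraAdjoinAdjoin

namespace Fermat.Agent.S24.ZP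

/-- Universe polymorphic transport of algebraic closedness along a ring isomorphism. -/
theorem isAlgClosed_of_ringEquiv {k k' : Type*} [Field k] [Field k'] (e : k ≃+* k')
    [IsAlgClosed k] : IsAlgClosed k' := by
  apply IsAlgClosed.of_exists_root
  intro p hmp hp
  have hpe : degree (p.map e.symm.toRingHom) ≠ 0 := by
    rw [degree_map]
    exact ne_of_gt (degree_pos_of_irreducible hp)
  rcases IsAlgClosed.exists_root (k := k) (p.map e.symm.toRingHom) hpe with ⟨x, hx⟩
  use e x
  rw [IsRoot] at hx
  apply e.symm.injective
  rw [map_zero, ← hx]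
  clear hx hpe hp hmp
  induction p using Polynomial.induction_on <;> simp_all

theorem finrank_eq_one_of_surjective {k L : Type*} [Field k] [Field L] [Algebra k L]
    (h : Function.Surjective (algebraMap k L)) : Module.finrank k L = 1 :=
  _root_.finrank_eq_one (1 : L) one_ne_zero (fun w => by
    obtain ⟨c, hc⟩ := h w
    exact ⟨c, by rw [Algebra.smul_def, mul_one, hc]⟩)

variable {K F : Type*} [Field K] [Field F] [Algebra K F] (y : F)

theorem inertiaDeg_eq_one [IsAlgClosed K] [CharZero K] [FiniteDimensional K⟮y⟯ F]
    (hy : Transcendental K y)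
    (q : Ideal (integralClosure (Algebra.adjoin K {y}) F)) (hq : q.IsPrime)
    (hqp : q.under (Algebra.adjoin K {y}) = pY K y) :
    q.inertiaDeg (Algebra.adjoin K {y}) = 1 := by
  have := pY_isMaximal y hy
  have : q.LiesOver (pY K y) := ⟨hqp.symm⟩
  have := finite_integralClosure (K := K) (F := F) y hy
  have : q.IsMaximal := Ideal.IsMaximal.of_liesOver_isMaximal q (pY K y)
  rw [Ideal.inertiaDeg_eq_of_isMaximal (pY K y) q]
  let _ : Field (Algebra.adjoin K {y} ⧸ pY K y) := Ideal.Quotient.field _
  let _ : Field (integralClosure (Algebra.adjoin K {y}) F ⧸ q) := Ideal.Quotient.field _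
  have : IsAlgClosed (Algebra.adjoin K {y} ⧸ pY K y) :=
    isAlgClosed_of_ringEquiv (residueEquiv y hy)
  have : Algebra.IsIntegral (Algebra.adjoin K {y} ⧸ pY K y)
    (integralClosure (Algebra.adjoin K {y}) F ⧸ q) := inferInstance
  have hbij := IsAlgClosed.algebraMap_bijective_of_isIntegral (k := Algebra.adjoin K {y} ⧸ pY K y)
    (K := integralClosure (Algebra.adjoin K {y}) F ⧸ q)
  exact finrank_eq_one_of_surjective hbij.2

/-- The data on the places over the zero of `y` consumed by the place counting theorem. -/
theorem zeroPlacesData [IsAlgClosed K] [CharZero K] [FiniteDimensional K⟮y⟯ F]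
    (hy : Transcendental K y) : ZeroPlacesData K y := by
  have hD := isDedekindDomain_integralClosure (K := K) (F := F) y hy
  have hDA := isDedekindDomain_adjoin (K := K) y hy
  have hFr := isFractionRing_integralClosure (K := K) (F := F) y
  have hfin := finite_integralClosure (K := K) (F := F) y hy
  have hch : CharZero (FractionRing (Algebra.adjoin K {y})) :=
    charZero_of_injective_algebraMap (R := K) (RingHom.injective _)
  have hy0 : y ≠ 0 := by
    rintro rfl
    exact hy isAlgebraic_zero
  have ht₀ : yA (K := K) y ≠ 0 := by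
    intro h
    exact hy0 (congrArg Subtype.val h)
  have hmax : (Ideal.span {yA (K := K) y}).IsMaximal := pY_isMaximal y hy
  have hdeg : ∀ q : Ideal (integralClosure (Algebra.adjoin K {y}) F), q.IsPrime →
      q.under (Algebra.adjoin K {y}) = Ideal.span {yA (K := K) y} →
      q.inertiaDeg (Algebra.adjoin K {y}) = 1 :=
    fun q hq hqp => inertiaDeg_eq_one y hy q hq hqp
  have hle : ∀ v : Place K F, 0 < v.ord y →
      ∀ r : integralClosure (Algebra.adjoin K {y}) F,
        algebraMap (integralClosure (Algebra.adjoin K {y}) F) F r ∈ v.toValuationSubring := by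
    intro v hv r
    exact integralClosure_le_place y v ((ord_nonneg_iff v hy0).mp hv.le) r
  have ht : algebraMap (Algebra.adjoin K {y}) (integralClosure (Algebra.adjoin K {y}) F) (yA y)
      ≠ 0 := by
    intro h
    exact hy0 (congrArg Subtype.val h)
  have hty : algebraMap (integralClosure (Algebra.adjoin K {y}) F) F
      (algebraMap (Algebra.adjoin K {y}) (integralClosure (Algebra.adjoin K {y}) F) (yA y)) = y :=
    rfl
  refine ⟨?_, ?_, ?_⟩
  · exact finite_zeroPlace' (K := K) (F := F) _ ht y hty hle
  · exact fun v' hv' f hf =>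
      ord_norm_general' (L₀ := K⟮y⟯) (yA y) ht₀ hmax hdeg y hty hle v' hv' f hf
  · exact fun v hv => approx_zeroPlace' _ ht y hty hle v hv

end Fermat.Agent.S24.ZP
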